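/-
Row S26, block SOFT (architect helper987), leaf S6 (algebra): over a separably closed field `K`,
a finite etale `K`-algebra `E` has exactly `dim_K E` `K`-points.  Mathlib only.  (helper147)
-/
import Mathlib

set_option autoImplicit false
set_option linter.style.haveILetI false
set_option linter.unusedSimpArgs false
universe u

namespace Fermat.Agent.S26.H147

section Pi

variable (K : Type u) [Field K] (I : Type u) [Finite I]

/-- Every `K`-algebra homomorphism `K^I → K` is an evaluation. -/
theorem exists_eval_eq_of_algHom_pi (φ : (I → K) →ₐ[K] K) :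
    ∃ i : I, ∀ f : I → K, φ f = f i := by
  classical
  haveI := Fintype.ofFinite I
  have hsum : ∀ f : I → K, φ f = ∑ i, f i * φ (Pi.single i 1) := by
    intro f
    have hf : f = ∑ i, f i • (Pi.single i (1 : K) : I → K) := by
      ext j
      simp [Finset.sum_apply, Pi.single_apply]
    conv_lhs => rw [hf]
    simp [map_sum, smul_eq_mul]
  have h1 : ∑ i, φ (Pi.single i (1 : K)) = 1 := by
    have := hsum 1
    simpa using this.symm
  have hidem : ∀ i, φ (Pi.single i (1 : K)) = 0 ∨ φ (Pi.single i (1 : K)) = 1 := by
    intro i
    have : φ (Pi.single i (1 : K)) * φ (Pi.single i (1 : K)) = φ (Pi.single i (1 : K)) := by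
      rw [← map_mul]
      congr 1
      ext j
      by_cases h : j = i
      · subst h; simp
      · simp [Pi.single_apply, h]
    rcases eq_or_ne (φ (Pi.single i (1 : K))) 0 with h0 | h0
    · exact Or.inl h0
    · right
      exact mul_left_cancel₀ h0 (by rw [this, mul_one])
  have horth : ∀ i j, i ≠ j → φ (Pi.single i (1 : K)) * φ (Pi.single j (1 : K)) = 0 := by
    intro i j hij
    rw [← map_mul]
    have : (Pi.single i (1 : K) : I → K) * Pi.single j (1 : K) = 0 := by
      ext l
      by_cases h : l = i
      · subst h; simp [Pi.single_apply, hij]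
      · simp [Pi.single_apply, h]
    rw [this, map_zero]
  obtain ⟨i, hi⟩ : ∃ i, φ (Pi.single i (1 : K)) = 1 := by
    by_contra hne
    push Not at hne
    have : ∀ i, φ (Pi.single i (1 : K)) = 0 := fun i => (hidem i).resolve_right (hne i)
    simp [this] at h1
  refine ⟨i, fun f => ?_⟩
  rw [hsum f]
  have hz : ∀ j, j ≠ i → φ (Pi.single j (1 : K)) = 0 := by
    intro j hj
    have := horth j i hj
    rwa [hi, mul_one] at this
  rw [Finset.sum_eq_single i]
  · rw [hi, mul_one]
  · intro j _ hj
    rw [hz j hj, mul_zero]
  · intro h
    exact absurd (Finset.mem_univ i) h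

/-- The `K`-points of `K^I` are the evaluations. -/
noncomputable def algHomPiEquiv : ((I → K) →ₐ[K] K) ≃ I :=
  Equiv.symm <| Equiv.ofBijective (fun i => Pi.evalAlgHom K (fun _ : I => K) i) <| by
    classical
    constructor
    · intro i j hij
      by_contra hne
      have := congrArg (fun ψ : (I → K) →ₐ[K] K => ψ (Pi.single i 1)) hij
      simp [Pi.single_apply, hne] at this
    · intro φ
      obtain ⟨i, hi⟩ := exists_eval_eq_of_algHom_pi K I φ
      exact ⟨i, AlgHom.ext fun f => (hi f).symm⟩

theorem natCard_algHom_pi : Nat.card ((I → K) →ₐ[K] K) = Nat.card I :=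
  Nat.card_congr (algHomPiEquiv K I)

end Pi

section Etale

theorem finite_primeSpectrum_of_etale (K : Type u) [Field K] (E : Type u) [CommRing E]
    [Algebra K E] [Algebra.Etale K E] : Finite (PrimeSpectrum E) := by
  haveI := Algebra.FormallyUnramified.finite_of_free K E
  haveI : IsArtinianRing E := isArtinian_of_tower K inferInstance
  infer_instance

variable (K : Type u) [Field K] [IsSepClosed K] (E : Type u) [CommRing E] [Algebra K E]
  [Algebra.Etale K E]

/-- **SOFT S6 (algebra).** A finite etale algebra over a separably closed field has exactly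
`dim_K E` points with values in `K`. -/
theorem natCard_algHom_eq_finrank_of_etale :
    Nat.card (E →ₐ[K] K) = Module.finrank K E := by
  classical
  haveI := finite_primeSpectrum_of_etale K E
  haveI := Fintype.ofFinite (PrimeSpectrum E)
  let e : E ≃ₐ[K] (PrimeSpectrum E → K) := Algebra.FormallyEtale.equivPiOfIsSepClosed K E
  have h1 : Nat.card (E →ₐ[K] K) = Nat.card ((PrimeSpectrum E → K) →ₐ[K] K) :=
    Nat.card_congr (e.arrowCongr AlgEquiv.refl)
  rw [h1, natCard_algHom_pi, e.toLinearEquiv.finrank_eq, Module.finrank_fintype_fun_eq_card,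
    Nat.card_eq_fintype_card]

end Etale

end Fermat.Agent.S26.H147
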