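/-
Row S26, block SOFT (architect helper987), leaf S6 (schemes): a finite etale scheme `Z` over a
separably closed field `K` has exactly `finrank` sections.  (helper147)
-/
import Fermat.Agent.S26.H147.SoftAlg

set_option autoImplicit false
set_option linter.style.haveILetI false
universe u

open CategoryTheory CategoryTheory.Limits AlgebraicGeometry

namespace Fermat.Agent.S26.H147

section Sections

variable {K : Type u} [Field K]

/-- Affine presentation of a morphism from an affine scheme to `Spec K`. -/
theorem exists_spec_presentation {Z : Scheme.{u}} [IsAffine Z]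
    (π : Z ⟶ Spec (CommRingCat.of K)) :
    ∃ (R : CommRingCat.{u}) (φ : CommRingCat.of K ⟶ R) (e : Z ≅ Spec R),
      π = e.hom ≫ Spec.map φ := by
  refine ⟨Γ(Z, ⊤), (Scheme.ΓSpecIso (CommRingCat.of K)).inv ≫ π.appTop, Z.isoSpec, ?_⟩
  rw [Spec.map_comp, Scheme.isoSpec_hom_naturality_assoc, Scheme.isoSpec_Spec_hom,
    ← Spec.map_comp, Iso.inv_hom_id, Spec.map_id, Category.comp_id]

/-- Sections of `Spec.map φ` are retractions of `φ`. -/
noncomputable def sectionsSpecEquiv {R : CommRingCat.{u}} (φ : CommRingCat.of K ⟶ R) :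
    {s : Spec (CommRingCat.of K) ⟶ Spec R // s ≫ Spec.map φ = 𝟙 _} ≃
      {ψ : R ⟶ CommRingCat.of K // φ ≫ ψ = 𝟙 _} where
  toFun s := ⟨Spec.preimage s.1, by
    apply Spec.map_injective
    rw [Spec.map_comp, Spec.map_preimage, s.2, Spec.map_id]⟩
  invFun ψ := ⟨Spec.map ψ.1, by rw [← Spec.map_comp, ψ.2, Spec.map_id]⟩
  left_inv s := Subtype.ext (Spec.map_preimage _)
  right_inv ψ := Subtype.ext (Spec.preimage_map _)

/-- Retractions of `φ : K → R` are `K`-algebra homomorphisms `R → K`. -/
noncomputable def retractionsEquivAlgHom {R : CommRingCat.{u}} (φ : CommRingCat.of K ⟶ R) :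
    letI : Algebra K R := φ.hom.toAlgebra
    {ψ : R ⟶ CommRingCat.of K // φ ≫ ψ = 𝟙 _} ≃ (R →ₐ[K] K) :=
  letI : Algebra K R := φ.hom.toAlgebra
  { toFun := fun ψ =>
      { toRingHom := ψ.1.hom
        commutes' := fun c => by
          have := congrArg (fun f : CommRingCat.of K ⟶ CommRingCat.of K => f.hom c) ψ.2
          have h2 : ψ.1.hom (φ.hom c) = c := by simpa using this
          exact h2 }
    invFun := fun f => ⟨CommRingCat.ofHom f.toRingHom, by
      ext c
      exact f.commutes c⟩
    left_inv := fun ψ => by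
      apply Subtype.ext
      rfl
    right_inv := fun f => by
      ext r
      rfl }

/-- Sections of `e.hom ≫ q` correspond to sections of `q`. -/
noncomputable def sectionsCongr {S Z Z' : Scheme.{u}} (e : Z ≅ Z') (q : Z' ⟶ S) :
    {s : S ⟶ Z // s ≫ e.hom ≫ q = 𝟙 _} ≃ {s : S ⟶ Z' // s ≫ q = 𝟙 _} where
  toFun s := ⟨s.1 ≫ e.hom, by rw [Category.assoc]; exact s.2⟩
  invFun s := ⟨s.1 ≫ e.inv, by
    rw [Category.assoc, Iso.inv_hom_id_assoc]; exact s.2⟩
  left_inv s := Subtype.ext (by simp)
  right_inv s := Subtype.ext (by simp)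

end Sections

section Count

variable {K : Type u} [Field K] [IsSepClosed K]

/-- **SOFT S6 (schemes).** A finite etale scheme over a separably closed field `K` has exactly
`finrank` sections. -/
theorem natCard_sections_eq_finrank {Z : Scheme.{u}} (π : Z ⟶ Spec (CommRingCat.of K))
    [IsFinite π] [Etale π] (x : Spec (CommRingCat.of K)) :
    Nat.card {s : Spec (CommRingCat.of K) ⟶ Z // s ≫ π = 𝟙 _} = π.finrank x := by
  haveI : IsAffine Z := isAffine_of_isAffineHom π
  obtain ⟨R, φ, e, rfl⟩ := exists_spec_presentation π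
  haveI hfin : IsFinite (Spec.map φ) := by
    have : IsFinite (e.inv ≫ e.hom ≫ Spec.map φ) := inferInstance
    simpa using this
  haveI het : Etale (Spec.map φ) := by
    have : Etale (e.inv ≫ e.hom ≫ Spec.map φ) := inferInstance
    simpa using this
  have hfin' : φ.hom.Finite := (IsFinite.SpecMap_iff φ).mp hfin
  have het' : φ.hom.Etale := (HasRingHomProperty.Spec_iff (P := @Etale)).mp het
  have hflat' : φ.hom.Flat := Flat.SpecMap_iff.mp inferInstance
  letI : Algebra K R := φ.hom.toAlgebra
  haveI : Algebra.Etale K R := het'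
  haveI : Module.Finite K R := hfin'
  rw [Scheme.Hom.finrank_comp_left_of_isIso, Scheme.Hom.finrank_SpecMap_eq_finrank hfin' hflat']
  rw [Nat.card_congr ((sectionsCongr e (Spec.map φ)).trans
    ((sectionsSpecEquiv φ).trans (retractionsEquivAlgHom φ)))]
  rw [natCard_algHom_eq_finrank_of_etale K R]
  show Module.finrank K R = Module.rankAtStalk (R := K) R _
  rw [Module.rankAtStalk_eq_finrank_of_free]
  rfl

end Count

end Fermat.Agent.S26.H147
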