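/-
Row S26, block SOFT (architect helper987, sub-architect helper746): leaves S1a, S4, S5a, S5b,
S6a, S6b, S6c for a general `RelativeGroupLaw` (Mathlib + Prelude only; does NOT import the
row's `Spec.lean`).  Statements = `coord/S26-SOFT-skeleton.lean.txt` of origin/helper746.
(helper147)
-/
import Fermat.Agent.S26.H147.SoftSections
import Fermat.Prelude.Def_JacJ1Iface
import Fermat.Prelude.Def_GoodReductionJacobian_RelativeGroupLawKernel

set_option autoImplicit false
set_option linter.style.haveILetI false
set_option linter.unusedSectionVars false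
universe u

open CategoryTheory CategoryTheory.Limits AlgebraicGeometry NeronModelInfra GoodReductionJacobian

namespace Fermat.Agent.S26.H147

/-- An etale ring homomorphism is quasi-finite. -/
theorem ringHom_quasiFinite_of_etale {R S : Type u} [CommRing R] [CommRing S] {f : R →+* S}
    (hf : f.Etale) : f.QuasiFinite := by
  algebraize [f]
  have : Algebra.Etale R S := hf
  show Algebra.QuasiFinite R S
  infer_instance

/-- **S4 (QF).** An etale morphism of schemes is locally quasi-finite. -/
theorem locallyQuasiFinite_of_etale {X Y : Scheme.{u}} (f : X ⟶ Y) [Etale f] :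
    LocallyQuasiFinite f := by
  have h : Etale f := inferInstance
  rw [HasRingHomProperty.eq_affineLocally @Etale] at h
  rw [HasRingHomProperty.eq_affineLocally @LocallyQuasiFinite]
  exact affineLocally_le (fun hf => ringHom_quasiFinite_of_etale hf) f h

/-- `Stmt.QuasiFiniteOfEtale` of helper527's `Soft/Spec.lean` (same statement, unfolded). -/
theorem quasiFiniteOfEtale :
    ∀ (X Y : Scheme.{u}) (f : X ⟶ Y), Etale f → LocallyQuasiFinite f :=
  fun _ _ f hf => @locallyQuasiFinite_of_etale _ _ f hf

/-- **S5b.** The rank of a finite flat finitely presented morphism onto a connected scheme is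
constant. -/
theorem finrank_eq_of_preconnected {X Y : Scheme.{u}} (φ : X ⟶ Y) [IsFinite φ] [Flat φ]
    [LocallyOfFinitePresentation φ] [PreconnectedSpace Y] (a b : Y) :
    φ.finrank a = φ.finrank b :=
  (Scheme.Hom.isLocallyConstant_finrank φ).apply_eq_of_preconnectedSpace a b

variable {K : Type u} [Field K]

/-- **S6a.** A finite etale scheme over a separably closed field has exactly `rank` rational
points. -/
theorem card_sections_eq_finrank' [IsSepClosed K] {Z : Scheme.{u}}
    (h : Z ⟶ Spec (CommRingCat.of K)) [IsFinite h] [Etale h] (y : Spec (CommRingCat.of K)) :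
    Nat.card (SchemeHomOver (𝟙 (Spec (CommRingCat.of K))) h) = h.finrank y :=
  natCard_sections_eq_finrank h y

/-- **S6a** (exact skeleton statement). -/
theorem card_sections_eq_finrank [IsAlgClosed K] {Z : Scheme.{u}}
    (h : Z ⟶ Spec (CommRingCat.of K)) [IsFinite h] [Etale h] (y : Spec (CommRingCat.of K)) :
    Nat.card (SchemeHomOver (𝟙 (Spec (CommRingCat.of K))) h) = h.finrank y :=
  natCard_sections_eq_finrank h y

/-- `Stmt.PointsOfFiniteEtale K` of helper527's `Soft/Spec.lean` (same statement, unfolded). -/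
theorem pointsOfFiniteEtale (K : Type u) [Field K] [IsAlgClosed K] :
    ∀ (Z : Scheme.{u}) (z : Z ⟶ Spec (CommRingCat.of K)), IsFinite z → Etale z →
      ∀ s : Spec (CommRingCat.of K),
        Nat.card (SchemeHomOver (𝟙 (Spec (CommRingCat.of K))) z) = z.finrank s :=
  fun _ z hf he s => @card_sections_eq_finrank K _ _ _ z hf he s

section Law

variable {A : Scheme.{u}} {f : A ⟶ Spec (CommRingCat.of K)} (L : RelativeGroupLaw K f)

/-- **S1a.** `[n] ∘ x = n • x` on `T`-valued points. -/
theorem comp_schemeNsmul {T : Scheme.{u}} (t : T ⟶ Spec (CommRingCat.of K)) (n : ℕ)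
    (x : SchemeHomOver t f) : x.1 ≫ L.schemeNsmul n = (L.nsmul t n x).1 := by
  have h := L.nsmul_natural f t x.1 x.2 n RelativeGroupLaw.idPoint
  have hx : schemeHomOverComp x.1 x.2 (RelativeGroupLaw.idPoint (f := f)) = x :=
    Subtype.ext (Category.comp_id _)
  rw [hx] at h
  rw [← h]
  rfl

/-- The zero section as a morphism of schemes. -/
noncomputable def zeroSec : Spec (CommRingCat.of K) ⟶ A :=
  (L.one (𝟙 (Spec (CommRingCat.of K)))).1

theorem zeroSec_comp : zeroSec L ≫ f = 𝟙 _ :=
  (L.one (𝟙 (Spec (CommRingCat.of K)))).2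

theorem isTorsionPoint_iff_comp (n : ℕ) (x : SchemeHomOver (𝟙 (Spec (CommRingCat.of K))) f) :
    L.IsTorsionPoint (𝟙 (Spec (CommRingCat.of K))) n x ↔
      x.1 ≫ L.schemeNsmul n = zeroSec L := by
  rw [comp_schemeNsmul]
  exact ⟨fun h => congrArg Subtype.val h, fun h => Subtype.ext h⟩

/-- **S6b.** The `n`-torsion `K`-points are the `K`-points of the kernel scheme. -/
noncomputable def torsionEquivKerPt (n : ℕ) :
    {x : SchemeHomOver (𝟙 (Spec (CommRingCat.of K))) f //
        L.IsTorsionPoint (𝟙 (Spec (CommRingCat.of K))) n x} ≃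
      SchemeHomOver (𝟙 (Spec (CommRingCat.of K))) (L.schemeKerStr n) where
  toFun x :=
    have hx : x.1.1 ≫ L.schemeNsmul n =
        𝟙 _ ≫ (L.one (𝟙 (Spec (CommRingCat.of K)))).1 := by
      rw [Category.id_comp]
      exact (isTorsionPoint_iff_comp L n x.1).mp x.2
    ⟨pullback.lift x.1.1 (𝟙 _) hx, pullback.lift_snd _ _ _⟩
  invFun s :=
    have h1 : (s.1 ≫ pullback.fst (L.schemeNsmul n)
        (L.one (𝟙 (Spec (CommRingCat.of K)))).1) ≫ L.schemeNsmul n = zeroSec L := by
      have h2 : s.1 ≫ pullback.snd (L.schemeNsmul n)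
          (L.one (𝟙 (Spec (CommRingCat.of K)))).1 = 𝟙 _ := s.2
      show (s.1 ≫ pullback.fst _ _) ≫ L.schemeNsmul n =
        (L.one (𝟙 (Spec (CommRingCat.of K)))).1
      rw [Category.assoc, pullback.condition, ← Category.assoc, h2, Category.id_comp]
    have h3 : (s.1 ≫ pullback.fst (L.schemeNsmul n)
        (L.one (𝟙 (Spec (CommRingCat.of K)))).1) ≫ f = 𝟙 _ := by
      have h4 := L.schemeNsmul_over n
      calc (s.1 ≫ pullback.fst _ _) ≫ f
          = ((s.1 ≫ pullback.fst _ _) ≫ L.schemeNsmul n) ≫ f := by
            rw [Category.assoc (s.1 ≫ pullback.fst _ _), h4]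
        _ = 𝟙 _ := by rw [h1, zeroSec_comp]
    ⟨⟨s.1 ≫ pullback.fst _ _, h3⟩, (isTorsionPoint_iff_comp L n _).mpr h1⟩
  left_inv x := Subtype.ext (Subtype.ext (pullback.lift_fst _ _ _))
  right_inv s := Subtype.ext (pullback.hom_ext (by rw [pullback.lift_fst])
    (by rw [pullback.lift_snd]; exact s.2.symm))

/-- **S6b** (exact skeleton statement). -/
theorem nonempty_torsion_equiv_kerPt (n : ℕ) :
    Nonempty ({x : SchemeHomOver (𝟙 (Spec (CommRingCat.of K))) f //
        L.IsTorsionPoint (𝟙 (Spec (CommRingCat.of K))) n x} ≃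
      SchemeHomOver (𝟙 (Spec (CommRingCat.of K))) (L.schemeKerStr n)) :=
  ⟨torsionEquivKerPt L n⟩

/-- `[n]` is proper. -/
theorem isProper_schemeNsmul (hpr : IsProper f) (n : ℕ) : IsProper (L.schemeNsmul n) := by
  haveI : IsProper (L.schemeNsmul n ≫ f) := by
    rw [L.schemeNsmul_over]; exact hpr
  exact IsProper.of_comp (L.schemeNsmul n) f

/-- **S4.** If `[n]` is etale then it is finite. -/
theorem isFinite_schemeNsmul (hpr : IsProper f) (n : ℕ) (het : Etale (L.schemeNsmul n)) :
    IsFinite (L.schemeNsmul n) := by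
  haveI := isProper_schemeNsmul L hpr n
  haveI := locallyQuasiFinite_of_etale (L.schemeNsmul n)
  exact IsFinite.of_isProper_of_locallyQuasiFinite (L.schemeNsmul n)

end Law

/-- **S5a.** An abelian variety is connected. -/
theorem connectedSpace_of_bundle {A : Scheme.{u}} {f : A ⟶ Spec (CommRingCat.of K)}
    (hA : AbelianSchemePropertyBundle K f) : ConnectedSpace A := by
  have h := hA.connectedFibres (default : Spec (CommRingCat.of K))
  have huniv : f.base ⁻¹' {(default : Spec (CommRingCat.of K))} = Set.univ := by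
    ext a
    simp only [Set.mem_preimage, Set.mem_univ, iff_true]
    exact Subsingleton.elim _ _
  rw [huniv] at h
  exact connectedSpace_iff_univ.mpr h

/-- **S6c** for a general group law: the number of `n`-torsion points is the rank of `[n]`. -/
theorem card_torsion_eq_finrank_law [IsSepClosed K] {A : Scheme.{u}}
    {f : A ⟶ Spec (CommRingCat.of K)} (L : RelativeGroupLaw K f)
    (hA : AbelianSchemePropertyBundle K f) (n : ℕ)
    (hfin : IsFinite (L.schemeNsmul n)) (het : Etale (L.schemeNsmul n)) (a : A) :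
    Nat.card {x : SchemeHomOver (𝟙 (Spec (CommRingCat.of K))) f //
        L.IsTorsionPoint (𝟙 (Spec (CommRingCat.of K))) n x} = (L.schemeNsmul n).finrank a := by
  haveI := connectedSpace_of_bundle hA
  rw [Nat.card_congr (torsionEquivKerPt L n)]
  rw [card_sections_eq_finrank' (L.schemeKerStr n) (default : Spec (CommRingCat.of K))]
  have h := Scheme.Hom.finrank_pullback_snd (L.schemeNsmul n)
    (L.one (𝟙 (Spec (CommRingCat.of K)))).1 (default : Spec (CommRingCat.of K))
  exact h.trans (finrank_eq_of_preconnected _ _ _)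

end Fermat.Agent.S26.H147
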