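/-
Row S26, block SOFT (architect helper987): `Stmt.Soft` follows from leaf S3 ("`[n]` is etale
for `n` invertible in `K`").  AbVar forms of S4, S5, S6c.  (helper147)
-/
import Fermat.Agent.S26.Spec
import Fermat.Agent.S26.H147.SoftLaw

set_option autoImplicit false
set_option linter.style.haveILetI false
universe u

open CategoryTheory CategoryTheory.Limits AlgebraicGeometry NeronModelInfra GoodReductionJacobian

namespace Fermat.Agent.S26.H147

variable {K : Type u} [Field K]

/-- `Stmt.KerPoints K` of helper527's `Soft/Spec.lean` (same statement, unfolded). -/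
theorem kerPoints (K : Type u) [Field K] :
    ∀ (X : AbVar K) (n : ℕ),
      Nonempty (SchemeHomOver (𝟙 (Spec (CommRingCat.of K))) (X.law.schemeKerStr n) ≃
        X.Torsion n) :=
  fun X n => ⟨(torsionEquivKerPt X.law n).symm⟩

/-- **S6c** (exact skeleton statement). -/
theorem card_torsion_eq_finrank [IsAlgClosed K] (X : AbVar K) (n : ℕ)
    (hfin : IsFinite (X.nsmulHom n)) (het : Etale (X.nsmulHom n)) (a : X.A) :
    Nat.card (X.Torsion n) = (X.nsmulHom n).finrank a :=
  card_torsion_eq_finrank_law X.law X.bundle n hfin het a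

/-- **SOFT, glue.** `Stmt.Soft` follows from leaf S3 (`[n]` is etale). -/
theorem soft_of_etale (K : Type u) [Field K] [IsAlgClosed K]
    (h : ∀ (X : AbVar K) (n : ℕ), (n : K) ≠ 0 → Etale (X.nsmulHom n)) : Stmt.Soft K := by
  intro X n hn
  have het : Etale (X.nsmulHom n) := h X n hn
  have hfin : IsFinite (X.nsmulHom n) := isFinite_schemeNsmul X.law X.bundle.proper n het
  exact ⟨hfin, het, fun a => card_torsion_eq_finrank X n hfin het a⟩

end Fermat.Agent.S26.H147
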